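import Fermat.Agent.Carayol.Rational
import Fermat.Agent.GaloisReps.HeckeGalois
import Mathlib.RingTheory.Norm.Transitivity

/-!
# Norms to a lower level of functions with fixed coefficients

The norm of a fixed function whose divisor is `m` times a fixed divisor with principal push forward
is a fixed constant times the `m`-th power of a fixed function.
-/

set_option autoImplicit false

noncomputable section

open AlgebraicCurve ModularCurve

namespace Fermat.Agent.Carayol.Bound

open Fermat.Agent.Arith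

section Generic

variable {K F F' : Type*} [Field K] [Field F] [Field F'] [Algebra K F] [Algebra K F']

/-- The norm along a morphism. -/
def normAlong (φ : F →ₐ[K] F') (f : F') : F :=
  letI := algebraAlong φ
  Algebra.norm F f

theorem normAlong_smul (φ : F →ₐ[K] F') (g : SemilinearAut K F) (g' : SemilinearAut K F')
    (hφ : ∀ x, φ (g • x) = g' • φ x) (f : F') :
    g • normAlong φ f = normAlong φ (g' • f) := by
  let := algebraAlong φ
  have h := Algebra.norm_eq_of_equiv_equiv (A₁ := F) (A₂ := F) (B₁ := F') (B₂ := F')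
    (SemilinearAut.toRingAut g) (SemilinearAut.toRingAut g')
    (RingHom.ext fun x => hφ x) f
  show SemilinearAut.toRingAut g (Algebra.norm F f) = _
  rw [h, RingEquiv.apply_symm_apply]
  rfl

variable [IsAlgClosed K] [FF.IsFunctionField K F] [FF.IsFunctionField K F']

omit [IsAlgClosed K] in
theorem ord_normAlong (φ : F →ₐ[K] F') {f : F'} (hf0 : f ≠ 0) {D : Divisor K F'} {m : ℕ}
    (hord : ∀ P : Place K F', P.ord f = (m : ℤ) * D P) {γ : F}
    (hγ : ∀ v : Place K F, Divisor.pushforwardAlong φ (FF.isIntegralAlong φ) D v = v.ord γ) :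
    normAlong φ f ≠ 0 ∧ ∀ v : Place K F, v.ord (normAlong φ f) = v.ord (γ ^ m) := by
  let := algebraAlong φ
  have := isScalarTower_along φ
  have : Module.Finite F F' := FF.finiteAlong φ
  refine ⟨Algebra.norm_ne_zero_iff.mpr hf0, fun v => ?_⟩
  have h := (FF.normFormulaAlong φ (FF.finiteAlong φ)) f hf0 ((m : ℤ) • D)
    (fun w => by rw [hord]; rfl) v
  rw [FF.ord_pow, ← hγ]
  refine h.symm.trans ?_
  rw [map_zsmul]
  rfl

end Generic

variable {A : ValuationSubring QBar} {N R : ℕ} [NeZero N] [NeZero R]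

local notation "FB" => modularFunctionFieldBar

local notation "gal" σ => arithmeticGalois (modularFunctionFieldFull R) σ

/-- The norm is a fixed constant times the `m`-th power of a fixed function. -/
theorem exists_normAlong_eq (φ : FB R →ₐ[QBar] FB N)
    (hφ : ∀ (σ : QBar ≃ₐ[ℚ] QBar) (x : FB R),
      φ ((gal σ) • x) = arithmeticGalois (modularFunctionFieldFull N) σ • φ x)
    {D : Divisor QBar (FB N)}
    (hD : ∀ σ ∈ A.inertiaSubgroupIn ℚ, arithmeticGalois (modularFunctionFieldFull N) σ • D = D)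
    (hpr : (Divisor.pushforwardAlong φ (FF.isIntegralAlong φ) D).IsPrincipal)
    {m : ℕ} {f : FB N} (hf0 : f ≠ 0) (hf : CoeffFixed (A.inertiaSubgroupIn ℚ) (f : LaurentSeries QBar))
    (hord : ∀ P : Place QBar (FB N), P.ord f = (m : ℤ) * D P) :
    ∃ (c : inertiaField A) (γ : FB R), c ≠ 0 ∧ γ ≠ 0 ∧
      CoeffFixed (A.inertiaSubgroupIn ℚ) (γ : LaurentSeries QBar) ∧
      normAlong φ f = algebraMap QBar (FB R) (c : QBar) * γ ^ m := by
  obtain ⟨γ, hγ0, hγ, -, hγord⟩ := exists_fixed_fun hpr fun σ hσ => by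
    rw [← GaloisReps.pushforwardAlong_smul (gal σ) (arithmeticGalois (modularFunctionFieldFull N) σ)
      φ (FF.isIntegralAlong φ) (hφ σ) D, hD σ hσ]
  obtain ⟨hN0, hordN⟩ := ord_normAlong φ hf0 hord hγord
  obtain ⟨c, hc⟩ := exists_eq_mul_of_ord hN0 (pow_ne_zero m hγ0) hordN
  have hc0 : c ≠ 0 := fun h => hN0 (by rw [hc, h, map_zero, zero_mul])
  have hcfix : ∀ σ ∈ A.inertiaSubgroupIn ℚ, σ c = c := by
    intro σ hσ
    have hNf : CoeffFixed (A.inertiaSubgroupIn ℚ) ((normAlong φ f : FB R) : LaurentSeries QBar) :=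
      coeffFixed_iff.mpr fun τ hτ => by
        rw [normAlong_smul φ _ _ (hφ τ), coeffFixed_iff.mp hf τ hτ]
    have h := hNf σ hσ
    rw [hc] at h
    change coeffMap (σ : QBar →+* QBar) (algebraMap QBar (LaurentSeries QBar) c *
      ((γ : LaurentSeries QBar) ^ m)) = algebraMap QBar (LaurentSeries QBar) c *
        ((γ : LaurentSeries QBar) ^ m) at h
    rw [map_mul, map_pow, hγ σ hσ, coeffMap_algebraMap] at h
    exact (algebraMap QBar (LaurentSeries QBar)).injective
      (mul_right_cancel₀ (pow_ne_zero m fun e => hγ0 (Subtype.ext e)) h)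
  exact ⟨⟨c, (mem_inertiaField A).mpr hcfix⟩, γ,
    fun h => hc0 (congrArg Subtype.val h), hγ0, hγ, hc⟩

end Fermat.Agent.Carayol.Bound

end
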