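import Fermat.Agent.Carayol.Omega.Maps
import Fermat.Agent.Mazur.Eisenstein.CuspFibre
import Fermat.Agent.Carayol.Bound.Norm

/-!
# Norms to level `q M` as products of translates

Inside the field of level `q n`, via `τ ↦ τ/q`, the norm of a function of level `q M q` along
either map to level `q M` is the product of its translates under one of the unipotent groups.
-/

set_option autoImplicit false
set_option linter.unusedSectionVars false

noncomputable section

open Matrix
open scoped MatrixGroups

namespace Fermat.Agent.Carayol.Bound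

open Fermat.Agent.Arith
open Fermat.Agent.Carayol.Omega
open AlgebraicCurve
open ModularCurve (coeffMap qExpand jqModC heckeAlphaBar heckeBetaBar)

local notation "FB" => ModularCurve.modularFunctionFieldBar
local notation "LS" => LaurentSeries QBar

theorem uPlus_add {q : ℕ} (a b : ZMod q) : uPlus (a + b) = uPlus a * uPlus b := by
  apply Units.ext; simp [uPlus, add_comm a b]

theorem uMinus_add {q : ℕ} (a b : ZMod q) : uMinus (a + b) = uMinus a * uMinus b := by
  apply Units.ext; simp [uMinus]

/-- Morphisms agreeing on a generating set are equal. -/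
theorem algHom_ext_of_eq_adjoin {k L : Type*} [Field k] [Algebra k LS] [Field L] [Algebra k L]
    {S : IntermediateField k LS} {G : Set LS} (h : S = IntermediateField.adjoin k G)
    (f g : S →ₐ[k] L) (hG : ∀ x : S, (x : LS) ∈ G → f x = g x) : f = g := by
  subst h
  exact IntermediateField.adjoin_algHom_ext k fun x hx => hG _ hx

theorem bar_eq_adjoin (N : ℕ) [NeZero N] :
    FB N = IntermediateField.adjoin QBar (ModularCurve.divisorExpansionsC QBar N) :=
  ModFun.laurentBaseChange_eq_fullC N QBar

variable {q n : ℕ} [NeZero q] [NeZero n] [NeZero (q * n)] (E : Setup (q * n) QBar)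
  (hcop : q.Coprime n) (hq : q.Prime) {P : ZMod (q * n) × ZMod (q * n)} (hP : GoodPt P)

/-- `x ↦ x (q ^ n)`, with values in the field of level `q n`. -/
def scaleHom (k : Type*) [Field k] [Algebra k QBar] (S : IntermediateField k LS)
    (h : ∀ x ∈ S, qExpand QBar n x ∈ E.field k) : S →ₐ[k] E.field k where
  toFun x := ⟨qExpand QBar n (x : LS), h _ x.2⟩
  map_one' := Subtype.ext (map_one (qExpand QBar n))
  map_mul' _ _ := Subtype.ext (map_mul (qExpand QBar n) _ _)
  map_zero' := Subtype.ext (map_zero (qExpand QBar n))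
  map_add' _ _ := Subtype.ext (map_add (qExpand QBar n) _ _)
  commutes' c := Subtype.ext <| by
    show qExpand QBar n (algebraMap k LS c) = algebraMap k LS c
    rw [algebraMap_laurent_comp, HahnSeries.C_apply, ModularCurve.qExpand_single, mul_zero]

theorem coe_scaleHom (k : Type*) [Field k] [Algebra k QBar] (S : IntermediateField k LS)
    (h : ∀ x ∈ S, qExpand QBar n x ∈ E.field k) (x : S) :
    (scaleHom E k S h x : LS) = qExpand QBar n (x : LS) := rfl

include hcop hq hP in
/-- The scaled adjunction lies in the field. -/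
theorem qExpand_adjoin_mem (k : Type*) [Field k] [Algebra k QBar] {M N : ℕ} [NeZero N]
    (hM : M ∣ n) (hN : N ∣ q * M * q) {x : LS}
    (hx : x ∈ IntermediateField.adjoin k (ModularCurve.divisorExpansionsC QBar N)) :
    qExpand QBar n x ∈ E.field k := by
  induction hx using IntermediateField.adjoin_induction with
  | mem z hz =>
    obtain ⟨d, hd, hdN, rfl⟩ := hz
    have := hd
    exact E.qExpand_jd_mem k hP hcop hq hM (hdN.trans hN)
  | algebraMap c =>
    rw [algebraMap_laurent_comp, HahnSeries.C_apply, ModularCurve.qExpand_single, mul_zero,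
      ← HahnSeries.C_apply, ← algebraMap_laurent_comp]
    exact (E.field k).algebraMap_mem c
  | add a b _ _ ha hb => rw [map_add]; exact add_mem ha hb
  | inv a _ ha => rw [map_inv₀]; exact inv_mem ha
  | mul a b _ _ ha hb => rw [map_mul]; exact mul_mem ha hb

include hcop hq hP in
theorem qExpand_bar_mem {M N : ℕ} [NeZero N] (hM : M ∣ n) (hN : N ∣ q * M * q) (x : FB N) :
    qExpand QBar n (x : LS) ∈ E.field QBar :=
  qExpand_adjoin_mem E hcop hq hP QBar hM hN ((bar_eq_adjoin N).le x.2)

/-- Substitution only depends on the series. -/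
theorem substHom_congr {k k' : Type*} [Field k] [Algebra k QBar] [Field k'] [Algebra k' QBar]
    (γ : SL(2, ℤ)) {x : E.field k} {x' : E.field k'} (h : (x : LS) = (x' : LS)) :
    E.substHom k γ x = E.substHom k' γ x' := by
  show E.fracPull γ (E.toFrac k x) = E.fracPull γ (E.toFrac k' x')
  congr 1
  exact E.fracSer.injective (by rw [E.fracSer_toFrac, E.fracSer_toFrac, h])

variable {N R : ℕ} [NeZero N] [NeZero R]

/-- The norm is a product of translates. -/
theorem prod_translates (φ : FB R →ₐ[QBar] FB N) (hmem : ∀ x ∈ FB N, qExpand QBar n x ∈ E.field QBar)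
    (u : ZMod q → GL (Fin 2) (ZMod q)) (hu : ∀ a b, u (a + b) = u a * u b)
    (hdet : ∀ a, Matrix.det (u a : Matrix (Fin 2) (Fin 2) (ZMod q)) = 1)
    (hfix : ∀ (a : ZMod q) (e : E.field QBar ≃ₐ[QBar] E.field QBar),
      E.Moves QBar e (liftMat hcop (u a : Matrix (Fin 2) (Fin 2) (ZMod q))) →
      ∀ x : FB R, e (scaleHom E QBar (FB N) hmem (φ x)) = scaleHom E QBar (FB N) hmem (φ x))
    (x0 : FB N)
    (hmove : ∀ (a : ZMod q) (e : E.field QBar ≃ₐ[QBar] E.field QBar),
      E.Moves QBar e (liftMat hcop (u a : Matrix (Fin 2) (Fin 2) (ZMod q))) →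
      e (scaleHom E QBar (FB N) hmem x0) = scaleHom E QBar (FB N) hmem x0 → a = 0)
    (hdeg : finrankAlong QBar φ = q) (k : Type*) [Field k] [Algebra k QBar] (f : FB N)
    {y : E.field k} (hy : (y : LS) = qExpand QBar n (f : LS))
    (e : ZMod q → E.field k ≃ₐ[k] E.field k)
    (he : ∀ a, E.Moves k (e a) (liftMat hcop (u a : Matrix (Fin 2) (Fin 2) (ZMod q)))) :
    ((∏ a, e a y : E.field k) : LS) = qExpand QBar n (φ (normAlong φ f) : LS) := by
  have hγ : ∀ a, ∃ γ : SL(2, ℤ),
      redMat (q * n) γ = liftMat hcop (u a : Matrix (Fin 2) (Fin 2) (ZMod q)) := fun a =>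
    exists_redMat_eq ((crt hcop).injective (by rw [crt_det_liftMat, hdet, map_one]; rfl))
  choose γ hγ using hγ
  have hb : ∀ a, ∃ eb, E.Moves QBar eb (liftMat hcop (u a : Matrix (Fin 2) (Fin 2) (ZMod q))) ∧
      ∀ x, ((eb x : E.field QBar) : LS) = E.substHom QBar (γ a) x := fun a => by
    obtain ⟨eb, h1, h2⟩ := E.exists_moves_subst QBar (γ a)
    exact ⟨eb, hγ a ▸ h1, h2⟩
  choose eb heb hval using hb
  set ψ := scaleHom E QBar (FB N) hmem with hψ
  let := algebraAlong φ
  have : Module.Finite (FB R) (FB N) := FF.finiteAlong φ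
  have : CharZero (FB R) := charZero_of_injective_algebraMap (algebraMap QBar (FB R)).injective
  have key := FF.map_norm_eq_prod (L := E.field QBar) ((ψ.comp φ).toRingHom)
    (fun a => ((eb a : E.field QBar →ₐ[QBar] E.field QBar).comp ψ).toRingHom)
    (fun a x => hfix a (eb a) (heb a) x)
    (fun a b h => by
      have h0 : eb a (ψ x0) = eb b (ψ x0) := RingHom.congr_fun h x0
      have e1 : eb a = eb b * eb (a - b) := (heb a).ext (by
        have h2 := (heb b).mul (heb (a - b))
        rwa [← liftMat_mul, ← Units.val_mul, ← hu, add_sub_cancel] at h2)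
      refine sub_eq_zero.1 (hmove _ _ (heb (a - b)) ((eb b).injective ?_))
      rw [← AlgEquiv.mul_apply, ← e1, h0])
    (by rw [ZMod.card]; exact hdeg.symm) f
  have key' := congrArg Subtype.val key
  refine Eq.trans ?_ key'.symm
  rw [SubmonoidClass.coe_finsetProd]
  refine (Finset.prod_congr rfl fun a _ => ?_).trans (SubmonoidClass.coe_finsetProd _ _).symm
  obtain ⟨e', he', hv'⟩ := E.exists_moves_subst k (γ a)
  obtain rfl : e' = e a := he'.ext (hγ a ▸ he a)
  rw [hv']
  exact (substHom_congr E (γ a) (x' := ψ f) hy).trans (hval a (ψ f)).symm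

/-- An automorphism fixing the images of the generators fixes the image. -/
theorem fix_of_gens (φ : FB R →ₐ[QBar] FB N) (hmem : ∀ x ∈ FB N, qExpand QBar n x ∈ E.field QBar)
    (e : E.field QBar ≃ₐ[QBar] E.field QBar)
    (h : ∀ (d : ℕ) [NeZero d], d ∣ R → ∀ x : FB R, (x : LS) = qExpand QBar d (jqModC QBar) →
      e (scaleHom E QBar (FB N) hmem (φ x)) = scaleHom E QBar (FB N) hmem (φ x)) (x : FB R) :
    e (scaleHom E QBar (FB N) hmem (φ x)) = scaleHom E QBar (FB N) hmem (φ x) :=
  AlgHom.congr_fun (algHom_ext_of_eq_adjoin (bar_eq_adjoin R)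
    (((e : E.field QBar →ₐ[QBar] E.field QBar).comp (scaleHom E QBar _ hmem)).comp φ)
    ((scaleHom E QBar _ hmem).comp φ) fun z hz => by
      obtain ⟨d, hd, hdN, hzd⟩ := hz
      have := hd
      exact h d hdN z hzd) x

variable (L : ℕ) {M : ℕ} [NeZero M] (hM : M ∣ n)

theorem coe_scale_alpha (hmem : ∀ x ∈ FB (q * M * q), qExpand QBar n x ∈ E.field QBar)
    (x : FB (q * M)) :
    (scaleHom E QBar (FB (q * M * q)) hmem (heckeAlphaBar QBar (q * M) q x) : LS)
      = qExpand QBar n (x : LS) :=
  congrArg (qExpand QBar n) (ModularCurve.coe_heckeAlphaBar (q * M) q x)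

theorem coe_scale_beta (hmem : ∀ x ∈ FB (q * M * q), qExpand QBar n x ∈ E.field QBar)
    (x : FB (q * M)) :
    (scaleHom E QBar (FB (q * M * q)) hmem (heckeBetaBar QBar (q * M) q x) : LS)
      = qExpand QBar n (qExpand QBar q (x : LS)) :=
  congrArg (qExpand QBar n) (ModularCurve.coe_heckeBetaBar (q * M) q x)

include hq hP hM in
/-- The norm along the inclusion. -/
theorem prod_uPlus [Fact q.Prime] (k : Type*) [Field k] [Algebra k QBar] (f : FB (q * M * q))
    {y : E.field k} (hy : (y : LS) = qExpand QBar n (f : LS))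
    (e : ZMod q → E.field k ≃ₐ[k] E.field k)
    (he : ∀ a, E.Moves k (e a) (liftMat hcop (uPlus a : Matrix (Fin 2) (Fin 2) (ZMod q)))) :
    ((∏ a, e a y : E.field k) : LS) = qExpand QBar n
      (heckeAlphaBar QBar (q * M) q (normAlong (heckeAlphaBar QBar (q * M) q) f) : LS) := by
  have hmem : ∀ x ∈ FB (q * M * q), qExpand QBar n x ∈ E.field QBar := fun x hx =>
    qExpand_bar_mem E hcop hq hP hM dvd_rfl ⟨x, hx⟩
  have hqq : q * q ∣ q * M * q := ⟨M, by ring⟩
  have hx0 : qExpand QBar (q * q) (jqModC QBar) ∈ FB (q * M * q) :=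
    (bar_eq_adjoin _).ge (IntermediateField.subset_adjoin _ _
      (ModularCurve.mem_divisorExpansionsC _ _ hqq))
  refine prod_translates E hcop (heckeAlphaBar QBar (q * M) q) hmem uPlus uPlus_add
    (fun a => by simp [uPlus, Matrix.det_fin_two]) (fun a e' he' => ?_) ⟨_, hx0⟩
    (fun a e' he' hfix => E.eq_zero_of_uPlus_fix hP hcop he'
      (y := scaleHom E QBar _ hmem ⟨_, hx0⟩) rfl hfix)
    (Mazur.Eisenstein.finrankAlong_of_dvd q (q * M) (dvd_mul_right q M)).1 k f hy e he
  exact fix_of_gens E (heckeAlphaBar QBar (q * M) q) hmem e' fun d _ hdN x hxd =>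
    E.fixed_uPlus hP hcop hq hM hdN a he' (by rw [coe_scale_alpha E hmem, hxd])

include hq hP hM in
/-- The norm along `τ ↦ q τ`. -/
theorem prod_uMinus [Fact q.Prime] (k : Type*) [Field k] [Algebra k QBar] (f : FB (q * M * q))
    {y : E.field k} (hy : (y : LS) = qExpand QBar n (f : LS))
    (e : ZMod q → E.field k ≃ₐ[k] E.field k)
    (he : ∀ a, E.Moves k (e a) (liftMat hcop (uMinus a : Matrix (Fin 2) (Fin 2) (ZMod q)))) :
    ((∏ a, e a y : E.field k) : LS) = qExpand QBar n
      (heckeBetaBar QBar (q * M) q (normAlong (heckeBetaBar QBar (q * M) q) f) : LS) := by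
  have hmem : ∀ x ∈ FB (q * M * q), qExpand QBar n x ∈ E.field QBar := fun x hx =>
    qExpand_bar_mem E hcop hq hP hM dvd_rfl ⟨x, hx⟩
  have hx0 : jqModC QBar ∈ FB (q * M * q) :=
    (bar_eq_adjoin _).ge (IntermediateField.subset_adjoin _ _
      (by simpa only [ModularCurve.qExpand_one_apply] using
        ModularCurve.mem_divisorExpansionsC QBar (q * M * q) (one_dvd _)))
  refine prod_translates E hcop (heckeBetaBar QBar (q * M) q) hmem uMinus uMinus_add
    (fun a => by simp [uMinus, Matrix.det_fin_two]) (fun a e' he' => ?_) ⟨_, hx0⟩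
    (fun a e' he' hfix => E.eq_zero_of_uMinus_fix hP hcop he'
      (y := scaleHom E QBar _ hmem ⟨_, hx0⟩) rfl hfix)
    (Mazur.Eisenstein.finrankAlong_of_dvd q (q * M) (dvd_mul_right q M)).2 k f hy e he
  exact fix_of_gens E (heckeBetaBar QBar (q * M) q) hmem e' fun d _ hdN x hxd =>
    E.fixed_uMinus hP hcop hq hM (d := q * d)
      (by rw [mul_comm (q * M) q]; exact mul_dvd_mul_left q hdN) (dvd_mul_right q d) a he' (by
        rw [coe_scale_beta E hmem, hxd]
        exact congrArg (qExpand QBar n) (ModularCurve.qExpand_qExpand d q _))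

end Fermat.Agent.Carayol.Bound

end
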