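import Fermat.Agent.Carayol.Rigid
import Fermat.Agent.Carayol.Omega.CuspInst
import Fermat.Agent.Carayol.Bound.Translates
import Fermat.Agent.Carayol.Statement

/-!
# The torsion classes fixed by inertia with trivial images are killed by a constant

The constant is the exponent lost by the integral study times the factorial of the order of the
group of the field of level `q n` over `k(j)`.
-/

set_option autoImplicit false
set_option linter.unusedSectionVars false

noncomputable section

open Matrix
open scoped MatrixGroups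

namespace Fermat.Agent.Carayol.Bound

open Fermat.Agent.Arith
open Fermat.Agent.Carayol.Omega
open AlgebraicCurve
open ModularCurve (coeffMap qExpand jqModC heckeAlphaBar heckeBetaBar JZero arithmeticGalois
  modularFunctionFieldFull)

section RatField

local notation "LS" => LaurentSeries QBar

variable {A : ValuationSubring QBar} {N : ℕ}

theorem ratField_gens : ModularCurve.divisorExpansionsC QBar N ⊆ (ratField (A.inertiaSubgroupIn ℚ) N : Set LS) :=
  IntermediateField.subset_adjoin _ _

theorem ratField_const (c : inertiaField A) :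
    algebraMap QBar LS (c : QBar) ∈ ratField (A.inertiaSubgroupIn ℚ) N := by
  have h := (ratField (A.inertiaSubgroupIn ℚ) N).algebraMap_mem c
  rwa [IsScalarTower.algebraMap_apply (inertiaField A) QBar LS] at h

theorem ratField_le {S : Subfield LS} (hc : ∀ c : inertiaField A, algebraMap QBar LS (c : QBar) ∈ S)
    (hg : ModularCurve.divisorExpansionsC QBar N ⊆ (S : Set LS)) {x : LS}
    (hx : x ∈ ratField (A.inertiaSubgroupIn ℚ) N) : x ∈ S := by
  induction hx using IntermediateField.adjoin_induction with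
  | mem z hz => exact hg hz
  | algebraMap c => rw [IsScalarTower.algebraMap_apply (inertiaField A) QBar LS]; exact hc c
  | add a b _ _ ha hb => exact add_mem ha hb
  | inv a _ ha => exact inv_mem ha
  | mul a b _ _ ha hb => exact mul_mem ha hb

/-- A rational function whose divisor is `m` times a fixed divisor, in any subfield containing the
rational functions. -/
theorem dvd_log_of_subfield [NeZero N] (S : Subfield LS) (hS : ∀ x ∈ ratField (A.inertiaSubgroupIn ℚ) N, x ∈ S)
    {m : ℕ} {D : Divisor QBar (ModularCurve.modularFunctionFieldBar N)}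
    (hfix : ∀ σ ∈ A.inertiaSubgroupIn ℚ, arithmeticGalois (modularFunctionFieldFull N) σ • D = D)
    {f : ModularCurve.modularFunctionFieldBar N} (hf0 : f ≠ 0)
    (hord : ∀ P : Place QBar (ModularCurve.modularFunctionFieldBar N), P.ord f = (m : ℤ) * D P)
    (hf : (f : LS) ∈ ratField (A.inertiaSubgroupIn ℚ) N) (fr : S) (hfr : (fr : LS) = f)
    (w : Valuation S (WithZero (Multiplicative ℤ)))
    (hw : ∀ (c : inertiaField A) (y : S), c ≠ 0 → (y : LS) = algebraMap QBar LS (c : QBar) →
      w y = 1) :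
    (m : ℤ) ∣ WithZero.log (w fr) := by
  let e : ratField (A.inertiaSubgroupIn ℚ) N →+* S :=
    ((ratField (A.inertiaSubgroupIn ℚ) N).val.toRingHom).codRestrict S fun x => hS x x.2
  have h := dvd_log_valuation hfix hf0 hord hf (w.comap e) fun c hc =>
    hw c _ hc (IsScalarTower.algebraMap_apply (inertiaField A) QBar LS c)
  rw [Valuation.comap_apply] at h
  rwa [show e ⟨(f : LS), hf⟩ = fr from Subtype.ext hfr.symm] at h

end RatField

attribute [local instance 2000] serAlg

local notation "FB" => ModularCurve.modularFunctionFieldBar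
local notation "LS" => LaurentSeries QBar

/-- The degree over the field of `j` is bounded. -/
theorem finrank_base_le {nn : ℕ} [NeZero nn] {K : Type*} [Field K] [CharZero K] (E : Setup nn K)
    (k : Type*) [Field k] [Algebra k K] [IsGalois k K] :
    Module.finrank (E.base k) (E.field k) ≤
      Nat.card (Matrix (Fin 2) (Fin 2) (ZMod nn)) := by
  rw [← E.fixedField_movesGroup k]
  have := Fintype.ofFinite (E.movesGroup k)
  show Module.finrank (FixedPoints.subfield (E.movesGroup k) (E.field k)) (E.field k) ≤ _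
  rw [FixedPoints.finrank_eq_card, ← Nat.card_eq_fintype_card]
  refine Nat.card_le_card_of_injective (fun e : E.movesGroup k => e.2.choose) fun e f h =>
    Subtype.ext ?_
  have he := e.2.choose_spec
  have hf := f.2.choose_spec
  rw [show e.2.choose = f.2.choose from h] at he
  exact he.ext hf

/-- An embedding of `ℚ̄` in `ℂ` with a root of unity. -/
theorem exists_setup (nn : ℕ) [NeZero nn] : Nonempty (Setup nn QBar) := by
  obtain ⟨ζ₀, hζ₀⟩ := HasEnoughRootsOfUnity.exists_primitiveRoot QBar nn
  obtain ⟨i, -, hi⟩ := (hζ₀.map_of_injective JacTorsion.ιQ.injective).eq_pow_of_pow_eq_one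
    (isPrimitiveRoot_zetaC nn).pow_eq_one
  exact ⟨⟨JacTorsion.ιQ, ζ₀ ^ i, by rw [map_pow, hi]⟩⟩

/-- An automorphism fixing the images of the generators fixes all images. -/
theorem fixed_of_gens {k L : Type*} [Field k] [Algebra k LS] [Field L] [Algebra k L] {G : Set LS}
    (ψ : IntermediateField.adjoin k G →ₐ[k] L) (e : L ≃ₐ[k] L)
    (h : ∀ x : IntermediateField.adjoin k G, (x : LS) ∈ G → e (ψ x) = ψ x)
    (x : IntermediateField.adjoin k G) : e (ψ x) = ψ x :=
  AlgHom.congr_fun (algHom_ext_of_eq_adjoin rfl (e.toAlgHom.comp ψ) ψ h) x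

/-- Descent of an `m`-th root along a finite extension by the norm. -/
theorem exists_descent {K R Ω : Type*} [Field K] [Field R] [Field Ω] [Algebra K R] [Algebra K Ω]
    (ψ : R →ₐ[K] Ω) (B : IntermediateField K Ω) [FiniteDimensional B Ω] (hle : B ≤ ψ.fieldRange)
    {f : R} {κ : K} {h : Ω} {G m : ℕ} (e : ψ f ^ G = algebraMap K Ω κ * h ^ m) :
    ∃ (d : ℕ) (η : R), 0 < d ∧ d ≤ Module.finrank B Ω ∧
      f ^ (G * d) = algebraMap K R κ ^ d * η ^ m := by
  set F := ψ.fieldRange
  let := (IntermediateField.inclusion hle).toRingHom.toAlgebra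
  have : IsScalarTower B F Ω := IsScalarTower.of_algebraMap_eq fun _ => rfl
  have : FiniteDimensional F Ω := Module.Finite.of_restrictScalars_finite B F Ω
  obtain ⟨η, hη⟩ := (Algebra.norm F h).2
  refine ⟨Module.finrank F Ω, η, Module.finrank_pos,
    IntermediateField.finrank_le_of_le_left hle, ψ.toRingHom.injective ?_⟩
  show ψ (f ^ _) = ψ (_ * _)
  rw [map_pow, map_mul, map_pow, map_pow, ψ.commutes]
  have e1 : algebraMap F Ω (⟨ψ f, f, rfl⟩ : F) ^ G =
      algebraMap F Ω (algebraMap K F κ) * h ^ m := e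
  have e2 := congrArg (Algebra.norm F) e1
  rw [← map_pow, map_mul, Algebra.norm_algebraMap, Algebra.norm_algebraMap, map_pow] at e2
  have e3 := congrArg Subtype.val e2
  simp only [SubmonoidClass.coe_pow, MulMemClass.coe_mul] at e3
  rw [pow_mul]
  change _ = _ * ψ η ^ m
  rw [show (ψ η : Ω) = ((Algebra.norm F h : F) : Ω) from hη]
  exact e3

section RatSer

variable (A : ValuationSubring QBar) (N : ℕ)

/-- `ratField` for the algebra structure of the cusp embedding. -/
def ratSer : IntermediateField (inertiaField A) LS :=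
  IntermediateField.adjoin _ (ModularCurve.divisorExpansionsC QBar N)

/-- Shortcut: the search through `LaurentSeries` is slow. -/
instance (priority := 5000) instAlgebraRatSer : Algebra (inertiaField A) (ratSer A N) :=
  inferInstance

variable {A N}

theorem mem_ratSer {x : LS} : x ∈ ratSer A N ↔ x ∈ ratField (A.inertiaSubgroupIn ℚ) N := by
  have e1 : ∀ c : inertiaField A,
      @algebraMap (inertiaField A) LS _ _ (serAlg A) c = algebraMap QBar LS (c : QBar) := fun c => by
    rw [algebraMap_laurent_comp, algebraMap_laurent_comp]; rfl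
  constructor <;> intro hx
  · induction hx using IntermediateField.adjoin_induction with
    | mem z hz => exact ratField_gens hz
    | algebraMap c => rw [e1]; exact ratField_const c
    | add a b _ _ ha hb => exact add_mem ha hb
    | inv a _ ha => exact inv_mem ha
    | mul a b _ _ ha hb => exact mul_mem ha hb
  · exact ratField_le (S := (ratSer A N).toSubfield)
      (fun c => e1 c ▸ (ratSer A N).algebraMap_mem c) (IntermediateField.subset_adjoin _ _) hx

end RatSer

section Combination

variable {K Ω : Type*} [Field K] [Field Ω] [Algebra K Ω] [DecidableEq Ω]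
  (L : TateLevel K Ω) (m : ℕ)

/-- Constants times `m`-th powers. -/
def constPow : AddSubgroup (Additive Ωˣ) :=
  Subgroup.toAddSubgroup ((Units.map (algebraMap K Ω).toMonoidHom : Kˣ →* Ωˣ).range ⊔
    (powMonoidHom m : Ωˣ →* Ωˣ).range : Subgroup Ωˣ)

variable {L m}

theorem mem_constPow {x : Additive Ωˣ} :
    x ∈ constPow (K := K) (Ω := Ω) m ↔ ∃ (κ : Kˣ) (γ : Ωˣ),
      x.toMul = Units.map (algebraMap K Ω).toMonoidHom κ * γ ^ m := by
  show x.toMul ∈ ((Units.map (algebraMap K Ω).toMonoidHom : Kˣ →* Ωˣ).range ⊔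
    (powMonoidHom m : Ωˣ →* Ωˣ).range : Subgroup Ωˣ) ↔ _
  rw [Subgroup.mem_sup]
  constructor
  · rintro ⟨_, ⟨κ, rfl⟩, _, ⟨γ, rfl⟩, h⟩
    exact ⟨κ, γ, h.symm⟩
  · rintro ⟨κ, γ, h⟩
    exact ⟨_, ⟨κ, rfl⟩, _, ⟨γ, rfl⟩, h.symm⟩

theorem transl_mem_constPow (g : GL (Fin 2) (ZMod L.frame.q)) {x : Ωˣ}
    (h : Additive.ofMul x ∈ constPow (K := K) (Ω := Ω) m) :
    Additive.ofMul (L.transl x g) ∈ constPow (K := K) (Ω := Ω) m := by
  obtain ⟨κ, γ, e⟩ := mem_constPow.1 h
  refine mem_constPow.2 ⟨κ, L.transl γ g, ?_⟩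
  rw [toMul_ofMul] at e ⊢
  refine Units.ext ?_
  subst e
  simp [TateLevel.coe_transl, Units.coe_map]

theorem combOp_mem_constPow {f : Ωˣ}
    (hp : Additive.ofMul (∏ a, L.transl f (uPlus a)) ∈ constPow (K := K) (Ω := Ω) m)
    (hm : Additive.ofMul (∏ a, L.transl f (uMinus a)) ∈ constPow (K := K) (Ω := Ω) m) :
    ∃ (κ : Kˣ) (γ : Ωˣ), L.lam (torusComb L.frame.q) (L.transl f)
      = Units.map (algebraMap K Ω).toMonoidHom κ * γ ^ m := by
  have key : ∀ (g : GL (Fin 2) (ZMod L.frame.q)) (u : ZMod L.frame.q → GL (Fin 2) (ZMod L.frame.q)),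
      Additive.ofMul (∏ a, L.transl f (u a)) ∈ constPow (K := K) (Ω := Ω) m →
      ∑ a, Additive.ofMul (L.transl f (g * u a)) ∈ constPow (K := K) (Ω := Ω) m := by
    intro g u h
    have := transl_mem_constPow g h
    simp only [TateLevel.transl_mul_apply]
    convert this using 1
    rw [← ofMul_prod]
    exact congrArg _ (map_prod (Units.map (L.act g).toRingEquiv.toRingHom.toMonoidHom) _ _).symm
  have hp' := hp
  have hm' := hm
  rw [ofMul_prod] at hp' hm'
  refine (mem_constPow (x := Additive.ofMul (L.lam (torusComb L.frame.q) (L.transl f)))).1 ?_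
  rw [TateLevel.lam, ofMul_toMul, sum_torusComb, combOp]
  refine sub_mem (add_mem (zsmul_mem (add_mem hp' hm') _)
    (zsmul_mem (add_mem (key _ _ hp) (key _ _ hm)) _)) (zsmul_mem (sum_mem fun x _ => ?_) _)
  exact add_mem (key _ _ hm) (key _ _ hp)

end Combination

variable {q n M : ℕ} [NeZero q] [NeZero n] [NeZero M] [NeZero (q * n)] [Fact q.Prime]

set_option maxHeartbeats 1600000 in
/-- The bound at one place. -/
theorem kill (E : Setup (q * n) QBar) (hcop : q.Coprime n) (hq : q.Prime) (hM : M ∣ n)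
    (L : ℕ) (hL : L = 7 ∨ L = 9) (hLn : L ∣ n) {A : ValuationSubring QBar} (hA : A.LiesOverPrime q)
    {m : ℕ} (hmq : m.Coprime q) (hm0 : m ≠ 0) {x : JZero (q * M * q)} (hmx : m • x = 0)
    (hfix : ∀ σ ∈ A.inertiaSubgroupIn ℚ, σ • x = x) (hnew : IsNewClass q M x) :
    (glueExp (torusComb q) *
      (Nat.card (Matrix (Fin 2) (Fin 2) (ZMod (q * n)))).factorial) • x = 0 := by
  classical
  set k := inertiaField A with hk
  have hP : GoodPt (markLabel hcop L) := by
    have hord := nsmul_markLabel_eq_zero_iff hcop (NeZero.ne n) hLn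
    constructor <;> intro h
    · have := Nat.le_of_dvd (by norm_num) ((hord 2).mp h); omega
    · have := Nat.le_of_dvd (by norm_num) ((hord 3).mp h); omega
  -- the fixed divisor and the function
  obtain ⟨D, hDx, hDfix⟩ := exists_fixed_rep hfix
  obtain ⟨hpα, hpβ⟩ := hnew D hDx
  have hmD : (m • (D : Divisor QBar (FB (q * M * q)))).IsPrincipal := by
    rw [← hDx] at hmx
    have h := (QuotientAddGroup.eq_zero_iff (m • D)).1
      (((map_nsmul (QuotientAddGroup.mk' _) m D)).trans hmx)
    exact AddSubgroup.mem_addSubgroupOf.1 h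
  obtain ⟨f, hf0, hfc, -, hford⟩ := exists_fixed_fun hmD fun σ hσ => by
    rw [smul_comm, hDfix σ hσ]
  have hord : ∀ P : Place QBar (FB (q * M * q)),
      P.ord f = (m : ℤ) * (D : Divisor QBar (FB (q * M * q))) P := fun P => by
    rw [← hford P, Finsupp.smul_apply, nsmul_eq_mul]
  -- the level datum
  have hgal : ∀ d : (ZMod q)ˣ, ∃ σ : QBar ≃ₐ[k] QBar, σ (E.ζ ^ q) = E.ζ ^ q ∧
      σ (E.ζ ^ n) = (E.ζ ^ n) ^ (d : ZMod q).val := fun d =>
    exists_aut_inertiaField hA hq
      (hq.coprime_iff_not_dvd.1 hcop)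
      E.isPrimitiveRoot d
  set TL := E.tateLevel k hcop hq L hL hLn hgal with hTL
  have hact : ∀ g : GL (Fin 2) (ZMod q),
      E.Moves k (TL.act g) (liftMat hcop (g : Matrix (Fin 2) (Fin 2) (ZMod q))) :=
    fun g => E.act_moves k hq L hL hLn hcop hgal g
  -- the map to the field
  have hmem : ∀ z ∈ ratSer A (q * M * q), qExpand QBar n z ∈ E.field k := fun z hz =>
    qExpand_adjoin_mem E hcop hq hP k hM dvd_rfl hz
  set ψ := scaleHom E k (ratSer A (q * M * q)) hmem with hψ
  set fr : ratSer A (q * M * q) := ⟨(f : LS), mem_ratSer.2 (mem_ratField f.2 hfc)⟩ with hfr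
  have hfr0 : fr ≠ 0 := fun h => hf0 (Subtype.ext (congrArg Subtype.val h :))
  set fΩ : (E.field k)ˣ := Units.mk0 (ψ fr) ((_root_.map_ne_zero ψ).2 hfr0) with hfΩ
  -- invariance under the torus
  have hfixed : TL.FixedBy (torusComb q) fΩ := by
    rintro t ⟨⟨a, d⟩, rfl⟩
    refine Units.ext ?_
    show TL.act (diagElt a d) (ψ fr) = ψ fr
    exact fixed_of_gens ψ _ (fun z hz => by
      obtain ⟨d', hd', hdN, hzd⟩ := hz
      have := hd'
      exact E.fixed_diag hP hcop hq hM hdN (g := diagElt (q := q) a d) rfl rfl (hact _)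
        ((coe_scaleHom E k _ hmem z).trans (congrArg (qExpand QBar n) hzd))) fr
  -- divisibility at the places
  have hpl : Places k m fΩ := by
    intro v hv
    have hd := dvd_log_of_subfield (ratSer A (q * M * q)).toSubfield (fun z => mem_ratSer.2) hDfix
      hf0 hord (mem_ratField f.2 hfc) fr rfl (v.comap ψ.toRingHom) fun c y hc hy => by
      show v (ψ y) = 1
      have hy' : y = algebraMap k (ratSer A (q * M * q)) c := Subtype.ext (hy.trans (by
        show _ = algebraMap k LS c
        rw [algebraMap_laurent_comp, algebraMap_laurent_comp]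
        rfl))
      rw [hy', ψ.commutes, hv c hc]
    rw [Valuation.comap_apply] at hd
    exact hd
  -- the norms
  have hnorm : ∀ (φ : FB (q * M) →ₐ[QBar] FB (q * M * q)),
      (∀ (σ : QBar ≃ₐ[ℚ] QBar) (z : FB (q * M)),
        φ (arithmeticGalois (modularFunctionFieldFull (q * M)) σ • z) =
          arithmeticGalois (modularFunctionFieldFull (q * M * q)) σ • φ z) →
      (Divisor.pushforwardAlong φ (FF.isIntegralAlong φ)
        (D : Divisor QBar (FB (q * M * q)))).IsPrincipal →
      ∀ u : ZMod q → GL (Fin 2) (ZMod q),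
        ((∏ a, TL.act (u a) (ψ fr) : E.field k) : LS)
          = qExpand QBar n (φ (normAlong φ f) : LS) →
        Additive.ofMul (∏ a, TL.transl fΩ (u a)) ∈ constPow (K := k) (Ω := E.field k) m := by
    intro φ hφ hpr u hprod
    obtain ⟨c, γ, hc, hγ0, hγ, hN⟩ := exists_normAlong_eq φ hφ hDfix hpr hf0 hfc hord
    have hγ' : CoeffFixed (A.inertiaSubgroupIn ℚ) ((φ γ : FB (q * M * q)) : LS) := coeffFixed_iff.mpr fun σ hσ => by
      rw [← hφ σ, coeffFixed_iff.mp hγ σ hσ]
    set γr : ratSer A (q * M * q) := ⟨((φ γ : FB (q * M * q)) : LS), mem_ratSer.2 (mem_ratField (φ γ).2 hγ')⟩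
      with hγr
    have hγr0 : γr ≠ 0 := fun h => hγ0 (φ.toRingHom.injective (by
      rw [map_zero]; exact Subtype.ext (congrArg Subtype.val h :)))
    refine mem_constPow.2 ⟨Units.mk0 c hc, Units.mk0 (ψ γr) ((_root_.map_ne_zero ψ).2 hγr0), ?_⟩
    rw [toMul_ofMul]
    refine Units.ext ?_
    rw [Units.coe_prod, Units.val_mul, Units.val_pow_eq_pow_val, Units.coe_map, Units.val_mk0,
      Units.val_mk0]
    refine Subtype.ext (Eq.trans hprod ?_)
    rw [hN, map_mul, map_pow, φ.commutes]
    show qExpand QBar n (algebraMap QBar LS (c : QBar) * ((φ γ : FB (q * M * q)) : LS) ^ m)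
      = algebraMap k LS c * (qExpand QBar n ((φ γ : FB (q * M * q)) : LS)) ^ m
    rw [map_mul, map_pow, algebraMap_laurent_comp, algebraMap_laurent_comp, HahnSeries.C_apply,
      ModularCurve.qExpand_single, mul_zero]
    rfl
  obtain ⟨κ, γ, hlam⟩ := combOp_mem_constPow (L := TL) (f := fΩ) (m := m)
    (hnorm _ (fun σ z => Subtype.ext (by
        rw [ModularCurve.coe_arithmeticGalois_smul, ModularCurve.coe_heckeAlphaBar,
          ModularCurve.coe_heckeAlphaBar, ModularCurve.coe_arithmeticGalois_smul]))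
      hpα uPlus (prod_uPlus E hcop hq hP hM k f (y := ψ fr) rfl
        (fun a => TL.act (uPlus a)) fun a => hact _))
    (hnorm _ (fun σ z => Subtype.ext (by
        rw [ModularCurve.coe_arithmeticGalois_smul, ModularCurve.coe_heckeBetaBar,
          ModularCurve.coe_heckeBetaBar, ModularCurve.coe_arithmeticGalois_smul,
          ModularCurve.coeffMap_qExpand]))
      hpβ uMinus (prod_uMinus E hcop hq hP hM k f (y := ψ fr) rfl
        (fun a => TL.act (uMinus a)) fun a => hact _))
  -- the integral study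
  obtain ⟨κ', h, hh⟩ := exists_const_mul_pow (L := TL) (U := inertialBase hA hq)
    (E.cuspEmb hA hq hcop L hL hLn hgal) (torusComb q)
    (TateLevel.isUnit_natCast (L := TL) (U := inertialBase hA hq) hmq) hfixed hpl hlam
  set G := glueExp (torusComb q)
  -- descent by the norm
  have hle : E.base k ≤ ψ.fieldRange := by
    rw [Setup.base, IntermediateField.adjoin_le_iff, Set.singleton_subset_iff]
    have hjq : qExpand QBar q (jqModC QBar) ∈ ratSer A (q * M * q) :=
      IntermediateField.subset_adjoin _ _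
        (ModularCurve.mem_divisorExpansionsC _ _ (dvd_mul_left q (q * M)))
    refine ⟨⟨_, hjq⟩, Subtype.ext ?_⟩
    show qExpand QBar n (qExpand QBar q (jqModC QBar)) = _
    rw [E.coe_fj, ModularCurve.qExpand_qExpand]
    exact ModularCurve.qExpand_congr (mul_comm n q) _
  have := E.finiteDimensional_base k
  have e := congrArg Units.val hh
  rw [Units.val_pow_eq_pow_val, Units.val_mul, Units.val_pow_eq_pow_val, Units.coe_map] at e
  obtain ⟨d, η, hd0, hdle, hη'⟩ := exists_descent ψ (E.base k) hle (f := fr) (G := G) e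
  have hdvd : d ∣ (Nat.card (Matrix (Fin 2) (Fin 2) (ZMod (q * n)))).factorial :=
    Nat.dvd_factorial hd0 (hdle.trans (finrank_base_le E k))
  have hη0 : η ≠ 0 := by
    intro h0
    rw [h0, zero_pow hm0, mul_zero] at hη'
    exact pow_ne_zero _ hfr0 hη'
  set g : FB (q * M * q) := ⟨(η : LS), mem_bar_of_mem_ratField (mem_ratSer.1 η.2)⟩ with hg
  have hg0 : g ≠ 0 := fun e => hη0 (Subtype.ext (congrArg Subtype.val e :))
  have hrel : f ^ (G * d) = algebraMap QBar (FB (q * M * q)) ((κ' : k) : QBar) ^ d * g ^ m :=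
    Subtype.ext (by
      have e := congrArg Subtype.val hη'
      push_cast at e ⊢
      rw [show ((fr : ratSer A (q * M * q)) : LS) = (f : LS) from rfl] at e
      rw [e]
      congr 2
      rw [algebraMap_laurent_comp, algebraMap_laurent_comp]
      rfl)
  have hkey : ∀ P : Place QBar (FB (q * M * q)),
      P.ord g = ((G * d : ℕ) : ℤ) * (D : Divisor QBar (FB (q * M * q))) P := by
    intro P
    have hc : algebraMap QBar (FB (q * M * q)) ((κ' : k) : QBar) ^ d ≠ 0 :=
      pow_ne_zero _ ((_root_.map_ne_zero _).2 fun e => κ'.ne_zero (Subtype.ext e))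
    have e := congrArg P.ord hrel
    rw [FF.ord_pow, P.ord_mul hc (pow_ne_zero _ hg0), FF.ord_pow,
      FF.ord_pow, FF.ord_algebraMap, mul_zero, zero_add, hord] at e
    refine mul_left_cancel₀ (Int.natCast_ne_zero.2 hm0) ?_
    linear_combination -e
  have hkill : (G * d) • x = 0 := by
    rw [← hDx]
    refine (map_nsmul (QuotientAddGroup.mk' _) (G * d) D).symm.trans ?_
    refine (QuotientAddGroup.eq_zero_iff _).2 (AddSubgroup.mem_addSubgroupOf.2 ⟨g, hg0, fun P => ?_⟩)
    rw [hkey]
    show ((G * d) • (D : Divisor QBar (FB (q * M * q)))) P = _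
    rw [Finsupp.smul_apply, nsmul_eq_mul]
  obtain ⟨t, ht⟩ := hdvd
  rw [ht, ← mul_assoc, mul_comm (G * d) t, mul_smul, hkill, smul_zero]

end Fermat.Agent.Carayol.Bound

namespace Fermat.Agent.Carayol

/-- The geometric theorem holds. -/
theorem fixedNewTorsionBound (q M : ℕ) [NeZero q] [NeZero M] (hq : q.Prime) (hqM : ¬ q ∣ M) :
    FixedNewTorsionBound q M := by
  have : Fact q.Prime := ⟨hq⟩
  set L : ℕ := if q = 7 then 9 else 7 with hLdef
  have hL : L = 7 ∨ L = 9 := by rw [hLdef]; split_ifs <;> simp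
  set n := L * M with hn
  have hqL : ¬ q ∣ L := by
    rw [hLdef]; split_ifs with h
    · subst h; norm_num
    · exact fun h' => h ((Nat.prime_dvd_prime_iff_eq hq (by norm_num)).1 h')
  have hcop : q.Coprime n := hq.coprime_iff_not_dvd.2 fun h => (hq.dvd_mul.1 h).elim hqL hqM
  have : NeZero n := ⟨Nat.mul_ne_zero (by rcases hL with h | h <;> omega) (NeZero.ne M)⟩
  have : NeZero (q * n) := ⟨Nat.mul_ne_zero hq.ne_zero (NeZero.ne n)⟩
  obtain ⟨E⟩ := Bound.exists_setup (q * n)
  refine ⟨glueExp (torusComb q) *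
      (Nat.card (Matrix (Fin 2) (Fin 2) (ZMod (q * n)))).factorial,
    Nat.mul_pos (glueExp_pos _) (Nat.factorial_pos _), ?_⟩
  intro lam k hlam hne A hA x hx hfix hnew
  exact Bound.kill E hcop hq (dvd_mul_left M L) L hL (dvd_mul_right L M) hA
    (Nat.Coprime.pow_left k ((Nat.coprime_primes hlam hq).2 hne)) (pow_ne_zero k hlam.ne_zero)
    hx hfix hnew

end Fermat.Agent.Carayol

end
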