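import Fermat.Agent.Carayol.Consumer
import Fermat.Agent.Carayol.Bound.Main
import Fermat.Agent.ConductorLevel.Inputs

/-!
# The representation of a newform is not unipotent where the square divides the level
-/

set_option autoImplicit false

noncomputable section

open Polynomial

namespace Fermat.Agent.Carayol

/-- The proposition of milestone statement 36, from the congruences on torsion. -/
theorem newformCarayolInput
    (hES : ∀ (N p : ℕ) [NeZero N] [Fact p.Prime], GaloisReps.CongruenceProperty N p) :
    ConductorLevel.NewformCarayolInput := by
  intro M _ g hg lam _ S O' _ _ _ _ _ _ hlamO' hlam2 chig hchig iota hlamS hMS _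
  exact exists_rep_not_unipotent hES (fun q M _ _ hq hqM => fixedNewTorsionBound q M hq hqM)
    hg lam S O' hlamO' hlam2 chig hchig iota hlamS hMS

end Fermat.Agent.Carayol

end
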